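import Fermat.Agent.S44.Soft.Defs
import Fermat.Agent.S44.Soft.Pol

/-!
# S43 (Ribet, Frey form): the Kummer-level interface statement `Core`

Level `N = M * q`, `q ∤ M`, `q` odd, `p ≥ 5`, `p ∤ M q`.  `A` a valuation ring of `ℚ̄` over `q`.
`W` an integral model of an elliptic curve with irreducible `E[p]`, `a ℓ = a_ℓ(W)`.

`Core M q p` : if no proper divisor `D` of `M q` carries the system `a mod p` (`Sep`: a separating polynomial in the Hecke
operators which kills `Kum D m` for all `m` and is a unit at `a`), and inertia at `q` acts trivially on `E[p]`,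
then the eigenspace `XX (M q) p S a ≤ Kum (M q) p` vanishes.

`S43.final` (`Top.lean`) : `Core ⟹` the frozen statement S43.
-/

set_option autoImplicit false

open AlgebraicCurve ModularCurve

namespace Fermat.Agent.S43

open Fermat.Agent.ES Fermat.Agent.SS Fermat.Agent.S33 Fermat.Agent.S58
open Fermat.Agent.S44.Soft (XX)

noncomputable section

/-- "the system `a mod p` does not occur at level `D`": a separating Hecke polynomial. -/
def Sep (D p : ℕ) [NeZero D] (S : Finset ℕ) (hDS : ∀ r : ℕ, r.Prime → r ∣ D → r ∈ S)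
    (a : ℕ → ℤ) : Prop :=
  ∃ Pol : FreeAlgebra ℤ (GP S),
    (∀ m : ℕ, 0 < m → FreeAlgebra.lift ℤ (fun ℓ : GP S => heckeT D m (ℓ.good hDS)) Pol = 0) ∧
    ¬ (p : ℤ) ∣ FreeAlgebra.lift ℤ (fun ℓ : GP S => a ℓ.1) Pol

/-- **CORE** (Ribet's theorem on Kummer classes). -/
def Core (M q p : ℕ) [NeZero M] [NeZero q] : Prop :=
  ∀ (A : ValuationSubring Qb), A.LiesOverPrime q →
  ∀ (W : WeierstrassCurve ℤ), W.Δ ≠ 0 →
  WeierstrassCurve.Affine.Point.GaloisRepIsIrreducible (K := Qb) ℚ (EQ W) p →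
  ∀ (S : Finset ℕ), p ∈ S → q ∈ S → (∀ r : ℕ, r.Prime → r ∣ M → r ∈ S) →
  (∀ r : ℕ, r.Prime → (r : ℤ) ∣ W.Δ → r ∈ S) →
  (∀ (D : ℕ) [NeZero D] (hDS : ∀ r : ℕ, r.Prime → r ∣ D → r ∈ S), D ∣ M * q → D ≠ M * q →
    Sep D p S hDS (fun ℓ => W.apOfModel ℓ)) →
  (∀ s ∈ A.inertiaSubgroupIn ℚ, ∀ R : Pts W, p • R = 0 → s • R = R) →
  ∀ x ∈ XX (M * q) p S (fun ℓ => W.apOfModel ℓ), x = 0

end

end Fermat.Agent.S43
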