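import Fermat.Agent.S43.Defs
import Fermat.Agent.S44.Soft.Frey
import Fermat.Agent.S44
import Fermat.Agent.S12.Loc.Model
import Fermat.Prelude.Def_FreyPackage_IsConductorLevel
import Fermat.Prelude.Def_FLTPrelim_Ramification

/-!
# S43 / Top : the frozen statement from `Core`

`final` : `Core ⟹ S43`.  Steps: pass to a minimal divisor `D₀ ∣ N` at which the Frey representation is modular; if `q ∣ D₀` then
`p ∤ D₀` by S44; `Sep` for all proper divisors by `S44.Soft.exists_pol`; a nonzero eigenclass by `S44.Soft.exists_new`.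
-/

set_option autoImplicit false

open AlgebraicCurve ModularCurve
open WeierstrassCurve WeierstrassCurve.Affine WeierstrassCurve.Affine.Point

namespace Fermat.Agent.S43

open Fermat.Agent.ES Fermat.Agent.SS Fermat.Agent.S33 Fermat.Agent.S58
open Fermat.Agent.S44 (Soft.exists_pol Soft.exists_new Soft.model_Δ_ne_zero Soft.triv_iff)

/-- the primes dividing `abc` are bad for every integral model of the Frey curve. -/
theorem dvd_Δ_of_dvd_abc (P : FreyPackage) (W : WeierstrassCurve ℤ)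
    (hW : W.IsIntegralModelOf P.freyCurve) {r : ℕ} (hr : r.Prime)
    (h : (r : ℤ) ∣ P.a * P.b * P.c) : (r : ℤ) ∣ W.Δ := by
  obtain ⟨C, hC⟩ := hW
  have hr' : Prime (r : ℤ) := Nat.prime_iff_prime_int.mp hr
  have h1 : (C • P.freyCurve).Δ = ((W.Δ : ℤ) : ℚ) := by
    rw [hC, WeierstrassCurve.map_Δ]; rfl
  have h2 : (C • P.freyCurve).c₄ = ((W.c₄ : ℤ) : ℚ) := by
    rw [hC, WeierstrassCurve.map_c₄]; rfl
  have h3 : P.freyCurve.Δ = (((Fermat.Agent.S12.Loc.Wf P).Δ : ℤ) : ℚ) := by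
    rw [Fermat.Agent.S12.Loc.freyCurve_eq P, WeierstrassCurve.map_Δ]; rfl
  have h4 : P.freyCurve.c₄ = (((Fermat.Agent.S12.Loc.Wf P).c₄ : ℤ) : ℚ) := by
    rw [Fermat.Agent.S12.Loc.freyCurve_eq P, WeierstrassCurve.map_c₄]; rfl
  rw [WeierstrassCurve.variableChange_Δ, h3] at h1
  rw [WeierstrassCurve.variableChange_c₄, h4] at h2
  have h5 : ((W.c₄ ^ 3 * (Fermat.Agent.S12.Loc.Wf P).Δ : ℤ) : ℚ)
      = (((Fermat.Agent.S12.Loc.Wf P).c₄ ^ 3 * W.Δ : ℤ) : ℚ) := by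
    push_cast
    rw [← h1, ← h2]
    ring
  have h6 : W.c₄ ^ 3 * (Fermat.Agent.S12.Loc.Wf P).Δ = (Fermat.Agent.S12.Loc.Wf P).c₄ ^ 3 * W.Δ := by
    exact_mod_cast h5
  have h7 : (r : ℤ) ∣ (Fermat.Agent.S12.Loc.Wf P).c₄ ^ 3 * W.Δ := by
    rw [← h6]
    exact Dvd.dvd.mul_left ((Fermat.Agent.S12.Loc.dvd_Δ_iff hr).2 h) _
  rcases hr'.dvd_or_dvd h7 with h8 | h8
  · exact absurd (hr'.dvd_of_dvd_pow h8) (Fermat.Agent.S12.Loc.not_dvd_c₄ hr h)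
  · exact h8

theorem final
    (hcore : ∀ (M q p : ℕ) [NeZero M] [NeZero q], p.Prime → 5 ≤ p → q.Prime → q ≠ 2 → q ≠ p →
      ¬ q ∣ M → ¬ p ∣ M → Squarefree M → Core M q p)
    (P : FreyPackage) {N q : ℕ} (hcond : P.IsConductorLevel N) (hq : q.Prime) (hq2 : q ≠ 2)
    (hqp : q ≠ P.p) (_hqN : q ∣ N)
    (hirr : GaloisRepIsIrreducible (K := AlgebraicClosure ℚ) ℚ P.freyCurve P.p)
    (hmod : P.ModularRepOfLevel N) (hunr : P.GaloisRepUnramifiedAt q) :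
    ∃ M : ℕ, M ∣ N ∧ ¬ q ∣ M ∧ P.ModularRepOfLevel M := by
  classical
  have hp : P.p.Prime := P.pp
  have hp5 : 5 ≤ P.p := P.hp5
  -- a minimal level
  have hex : ∃ D : ℕ, D ∣ N ∧ P.ModularRepOfLevel D := ⟨N, dvd_rfl, hmod⟩
  obtain ⟨hD₀N, hD₀mod⟩ := Nat.find_spec hex
  have hmin : ∀ D : ℕ, D < Nat.find hex → ¬ (D ∣ N ∧ P.ModularRepOfLevel D) :=
    fun D hD => Nat.find_min hex hD
  generalize Nat.find hex = D₀ at hD₀N hD₀mod hmin
  have hD₀pos : 0 < D₀ := Nat.pos_of_dvd_of_pos hD₀N hcond.pos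
  have hcond₀ : P.IsConductorLevel D₀ := hcond.of_dvd hD₀N hD₀pos
  have hmin' : ∀ D : ℕ, D ∣ D₀ → D ≠ D₀ → ¬ P.ModularRepOfLevel D := by
    intro D hD hne hm
    exact hmin D (lt_of_le_of_ne (Nat.le_of_dvd hD₀pos hD) hne) ⟨hD.trans hD₀N, hm⟩
  by_cases hqD : q ∣ D₀
  swap
  · exact ⟨D₀, hD₀N, hqD, hD₀mod⟩
  exfalso
  -- `p ∤ D₀`
  have hpD : ¬ P.p ∣ D₀ := by
    intro hpD
    obtain ⟨M', hM', hpM', hmod'⟩ := Fermat.Agent.S44.result P hcond₀ hpD hirr hD₀mod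
    exact hmin' M' hM' (fun h => hpM' (h ▸ hpD)) hmod'
  obtain ⟨M, hM⟩ := hqD
  rw [mul_comm] at hM
  subst hM
  have hM0 : NeZero M := ⟨fun h => hD₀pos.ne' (by rw [h, zero_mul])⟩
  have hq0 : NeZero q := ⟨hq.ne_zero⟩
  have hqM : ¬ q ∣ M := by
    rintro ⟨t, rfl⟩
    exact hcond₀.sq_not_dvd hq ⟨t, by ring⟩
  have hpM : ¬ P.p ∣ M := fun h => hpD (h.mul_right q)
  have hsqf : Squarefree M := hcond₀.squarefree.squarefree_of_dvd (Dvd.intro _ rfl)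
  obtain ⟨f, W, 𝔪, hf, hW, h𝔪, hp𝔪, hcong⟩ := hD₀mod
  have hΔ := Soft.model_Δ_ne_zero P W hW
  let S : Finset ℕ := (M * q * P.p * W.Δ.natAbs).primeFactors
  have hprod : M * q * P.p * W.Δ.natAbs ≠ 0 :=
    mul_ne_zero (mul_ne_zero (mul_ne_zero (NeZero.ne M) hq.ne_zero) hp.ne_zero)
      (Int.natAbs_ne_zero.2 hΔ)
  have hmemS : ∀ r : ℕ, r.Prime → (r ∈ S ↔ r ∣ M * q ∨ r = P.p ∨ (r : ℤ) ∣ W.Δ) := by
    intro r hr
    rw [Nat.mem_primeFactors]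
    constructor
    · rintro ⟨-, h, -⟩
      rcases (Nat.Prime.dvd_mul hr).1 h with h | h
      · rcases (Nat.Prime.dvd_mul hr).1 h with h | h
        · exact Or.inl h
        · exact Or.inr (Or.inl ((Nat.prime_dvd_prime_iff_eq hr hp).1 h))
      · exact Or.inr (Or.inr (Int.natCast_dvd.2 h))
    · rintro (h | rfl | h)
      · exact ⟨hr, (h.mul_right _).mul_right _, hprod⟩
      · exact ⟨hr, (Dvd.intro_left (M * q) rfl).mul_right _, hprod⟩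
      · exact ⟨hr, (Int.natCast_dvd.1 h).mul_left _, hprod⟩
  have hpS : P.p ∈ S := (hmemS _ hp).2 (Or.inr (Or.inl rfl))
  have hNS : ∀ r : ℕ, r.Prime → r ∣ M * q → r ∈ S := fun r hr h => (hmemS r hr).2 (Or.inl h)
  have hqS : q ∈ S := hNS q hq (Dvd.intro_left M rfl)
  have hMS : ∀ r : ℕ, r.Prime → r ∣ M → r ∈ S := fun r hr h => hNS r hr (h.mul_right q)
  have hWS : ∀ r : ℕ, r.Prime → (r : ℤ) ∣ W.Δ → r ∈ S := fun r hr h =>
    (hmemS r hr).2 (Or.inr (Or.inr h))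
  have hirrW : GaloisRepIsIrreducible (K := Qb) ℚ (EQ W) P.p := by
    obtain ⟨C, hC⟩ := hW
    have h1 : GaloisRepIsIrreducible (K := Qb) ℚ (C • P.freyCurve).toAffine P.p :=
      (Fermat.Agent.S44.VC.irreducible_iff P.freyCurve C P.p).2 hirr
    rw [hC] at h1
    exact h1
  obtain ⟨A, hA⟩ := Fermat.Agent.S54.exists_liesOverPrime q hq
  obtain ⟨x, hx0, hx⟩ := Soft.exists_new (M * q) P.p hp S hNS hpS (fun ℓ => W.apOfModel ℓ) f hf 𝔪
    h𝔪 hp𝔪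
    (fun ℓ hℓ hℓS => hcong ℓ hℓ (fun h => hℓS (hWS ℓ hℓ h)) (fun h => hℓS (hNS ℓ hℓ h))
      (fun h => hℓS (h ▸ hpS)))
  refine hx0 (hcore M q P.p hp hp5 hq hq2 hqp hqM hpM hsqf A hA W hΔ hirrW S hpS hqS hMS hWS ?_ ?_
    x hx)
  · -- separating polynomials
    intro D _ hDS hD hne
    refine Soft.exists_pol D P.p hp S hDS (fun ℓ => W.apOfModel ℓ) ?_
    rintro ⟨g, 𝔪', hg, h𝔪', hp𝔪', hcong'⟩
    refine hmin' D hD hne ⟨g, W, 𝔪', hg, hW, h𝔪', hp𝔪', fun ℓ hℓ hgood hℓD hℓp => ?_⟩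
    by_cases hℓS : ℓ ∈ S
    · exfalso
      rcases (hmemS ℓ hℓ).1 hℓS with h | h | h
      · exact hgood (dvd_Δ_of_dvd_abc P W hW hℓ (hcond₀.support ℓ hℓ h))
      · exact hℓp h
      · exact hgood h
    · exact hcong' ℓ hℓ hℓS
  · -- inertia at `q`
    intro s hs
    refine (Soft.triv_iff P.freyCurve W hW P.p s).2 fun R hR => ?_
    have h1 := hunr A hA s hs ⟨R, (Submodule.mem_torsionBy_iff _ _).2 (by
      rw [natCast_zsmul]
      exact hR)⟩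
    exact congrArg Subtype.val h1

end Fermat.Agent.S43
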