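import Mathlib

/-!
# S43 / Count : the counting lemma for the inertial type

`H` a finite abelian group, `d` (= `δ`), `s` (= `Σ`), `Nm` commuting endomorphisms with
`d ∘ Nm = Nm = Nm ∘ d` and `ker (d - 1) ≤ range Nm`.
`A = ker (s - 1)`, `B = ker (s - d)`.  If `#H ≤ #A * #B` and `#(A ⊓ B)^2 ≤ #ker (d - 1)` then
`(d - 1) (s - 1) (s - d) = 0` and `#A * #B = #H`.
-/

set_option autoImplicit false

namespace Fermat.Agent.S43.Count

theorem card_ker_mul_card_range {G G' : Type*} [AddCommGroup G] [AddCommGroup G']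
    (f : G →+ G') : Nat.card f.ker * Nat.card f.range = Nat.card G := by
  rw [← AddSubgroup.index_ker]
  exact AddSubgroup.card_mul_index _

variable {H : Type*} [AddCommGroup H] [Finite H]

/-- **COUNT**. -/
theorem count (d s Nm : H →+ H)
    (hsd : ∀ x, s (d x) = d (s x)) (hsN : ∀ x, s (Nm x) = Nm (s x))
    (hdN : ∀ x, d (Nm x) = Nm x) (hNd : ∀ x, Nm (d x) = Nm x)
    (hker : ∀ x, d x = x → ∃ y, Nm y = x)
    (A B I V : AddSubgroup H)
    (hA : ∀ x, x ∈ A ↔ s x = x) (hB : ∀ x, x ∈ B ↔ s x = d x)
    (hI : ∀ x, x ∈ I ↔ s x = x ∧ d x = x) (hV : ∀ x, x ∈ V ↔ d x = x)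
    (h1 : Nat.card H ≤ Nat.card A * Nat.card B)
    (h3 : Nat.card I ^ 2 ≤ Nat.card V) :
    (∀ x, d (s (s x - d x) - (s x - d x)) = s (s x - d x) - (s x - d x)) ∧
      Nat.card A * Nat.card B = Nat.card H := by
  classical
  -- `T = (s - 1)(s - d)`, `w = d - 1`
  let T : H →+ H := (s - AddMonoidHom.id H).comp (s - d)
  let w : H →+ H := d - AddMonoidHom.id H
  have hT : ∀ x, T x = s (s x - d x) - (s x - d x) := fun x => rfl
  have hw : ∀ x, w x = d x - x := fun x => rfl
  -- `P = Nm ⁻¹ I`
  let P : AddSubgroup H := I.comap Nm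
  let G : AddSubgroup H := P ⊓ T.ker
  have hTA : ∀ x ∈ A, T x = 0 := by
    intro x hx
    have h := (hA x).1 hx
    rw [hT, map_sub, hsd, h, h, sub_self]
  have hTB : ∀ x ∈ B, T x = 0 := by
    intro x hx
    have h := (hB x).1 hx
    rw [hT, h, sub_self, map_zero, sub_self]
  have hPA : ∀ x ∈ A, x ∈ P := by
    intro x hx
    have h := (hA x).1 hx
    show Nm x ∈ I
    rw [hI]
    exact ⟨by rw [hsN, h], hdN x⟩
  have hPB : ∀ x ∈ B, x ∈ P := by
    intro x hx
    have h := (hB x).1 hx
    show Nm x ∈ I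
    rw [hI]
    exact ⟨by rw [hsN, h, hNd], hdN x⟩
  -- step 1
  have s1 : Nat.card A * Nat.card B ≤ Nat.card I * Nat.card G := by
    let f : A × B →+ H := A.subtype.coprod B.subtype
    have hf : ∀ z : A × B, f z = (z.1 : H) + (z.2 : H) := fun z => rfl
    have e1 := card_ker_mul_card_range f
    rw [Nat.card_prod] at e1
    rw [← e1]
    apply Nat.mul_le_mul
    · -- ker ↪ I
      refine Nat.card_le_card_of_injective
        (fun z : f.ker => (⟨(z.1.1 : H), ?_⟩ : I)) ?_
      · have hz : (z.1.1 : H) + (z.1.2 : H) = 0 := by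
          have := z.2
          rw [AddMonoidHom.mem_ker, hf] at this
          exact this
        have hz1 : (z.1.1 : H) = - (z.1.2 : H) := eq_neg_of_add_eq_zero_left hz
        have ha := (hA _).1 z.1.1.2
        have hb : (z.1.1 : H) ∈ B := by rw [hz1]; exact B.neg_mem z.1.2.2
        have hb' := (hB _).1 hb
        rw [hI]
        exact ⟨ha, by rw [← hb', ha]⟩
      · intro z z' hzz
        have h0 : (z.1.1 : H) = (z'.1.1 : H) := congrArg (fun t : I => (t : H)) hzz
        have hz : (z.1.1 : H) + (z.1.2 : H) = 0 := by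
          have := z.2
          rw [AddMonoidHom.mem_ker, hf] at this
          exact this
        have hz' : (z'.1.1 : H) + (z'.1.2 : H) = 0 := by
          have := z'.2
          rw [AddMonoidHom.mem_ker, hf] at this
          exact this
        have h2 : (z.1.2 : H) = (z'.1.2 : H) := by
          have e := hz.trans hz'.symm
          rw [h0] at e
          exact add_left_cancel e
        apply Subtype.ext
        apply Prod.ext
        · exact Subtype.ext h0
        · exact Subtype.ext h2
    · apply AddSubgroup.card_le_of_le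
      rintro _ ⟨z, rfl⟩
      rw [hf]
      refine ⟨P.add_mem (hPA _ z.1.2) (hPB _ z.2.2), ?_⟩
      show T ((z.1 : H) + (z.2 : H)) = 0
      rw [map_add, hTA _ z.1.2, hTB _ z.2.2, add_zero]
  -- step 2
  have s2 : Nat.card G * Nat.card (w.comp T).range ≤ Nat.card P := by
    let f : P →+ H := T.comp P.subtype
    have e1 := card_ker_mul_card_range f
    rw [← e1]
    apply Nat.mul_le_mul
    · refine Nat.card_le_card_of_injective
        (fun z : G => (⟨⟨(z : H), z.2.1⟩, ?_⟩ : f.ker)) ?_
      · rw [AddMonoidHom.mem_ker]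
        exact z.2.2
      · intro z z' hzz
        apply Subtype.ext
        exact congrArg (fun t : f.ker => ((t : P) : H)) hzz
    · apply AddSubgroup.card_le_of_le
      rintro _ ⟨x, rfl⟩
      have hwx : w x ∈ P := by
        show Nm (w x) ∈ I
        rw [hw, map_sub, hNd, sub_self]
        exact I.zero_mem
      refine ⟨⟨w x, hwx⟩, ?_⟩
      show T (w x) = w (T x)
      simp only [hT, hw, map_sub, hsd]
      abel
  -- step 3
  have s3 : Nat.card P ≤ Nat.card Nm.ker * Nat.card I := by
    let f : P →+ H := Nm.comp P.subtype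
    have e1 := card_ker_mul_card_range f
    rw [← e1]
    apply Nat.mul_le_mul
    · refine Nat.card_le_card_of_injective
        (fun z : f.ker => (⟨((z : P) : H), ?_⟩ : Nm.ker)) ?_
      · have := z.2
        rw [AddMonoidHom.mem_ker] at this ⊢
        exact this
      · intro z z' hzz
        apply Subtype.ext
        apply Subtype.ext
        exact congrArg (fun t : Nm.ker => (t : H)) hzz
    · apply AddSubgroup.card_le_of_le
      rintro _ ⟨x, rfl⟩
      exact x.2
  -- step 4
  have s4 : Nat.card Nm.ker * Nat.card V ≤ Nat.card H := by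
    rw [← card_ker_mul_card_range Nm]
    apply Nat.mul_le_mul le_rfl
    apply AddSubgroup.card_le_of_le
    intro x hx
    obtain ⟨y, hy⟩ := hker x ((hV x).1 hx)
    exact ⟨y, hy⟩
  -- arithmetic
  have hpos : 0 < Nat.card H := Nat.card_pos
  set h := Nat.card H
  set a := Nat.card A
  set b := Nat.card B
  set i := Nat.card I
  set g := Nat.card G
  set ww := Nat.card (w.comp T).range
  set pp := Nat.card P
  set k := Nat.card Nm.ker
  set v := Nat.card V
  have wpos : 0 < ww := Nat.card_pos
  have c1 : a * b * ww ≤ h := by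
    calc a * b * ww ≤ i * g * ww := Nat.mul_le_mul s1 le_rfl
      _ = i * (g * ww) := by ring
      _ ≤ i * pp := Nat.mul_le_mul le_rfl s2
      _ ≤ i * (k * i) := Nat.mul_le_mul le_rfl s3
      _ = k * i ^ 2 := by ring
      _ ≤ k * v := Nat.mul_le_mul le_rfl h3
      _ ≤ h := s4
  have c2 : h * ww ≤ h := le_trans (Nat.mul_le_mul h1 le_rfl) c1
  have c3 : ww ≤ 1 := by
    by_contra hcon
    have hcon' : 2 ≤ ww := by omega
    have : h * 2 ≤ h * ww := Nat.mul_le_mul le_rfl hcon'
    omega
  have c4 : ww = 1 := le_antisymm c3 wpos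
  constructor
  · intro x
    have hbot : (w.comp T).range = ⊥ := by
      rw [← AddSubgroup.card_eq_one]
      exact c4
    have hx : w (T x) ∈ (w.comp T).range := ⟨x, rfl⟩
    rw [hbot, AddSubgroup.mem_bot, hw, hT] at hx
    exact sub_eq_zero.1 hx
  · rw [c4, mul_one] at c1
    exact le_antisymm c1 h1

end Fermat.Agent.S43.Count
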