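import Fermat.Agent.S43.CountPow

/-!
# S43 / CountMain : the inertial type on the tower from soft facts + `(d1)` + `(I1)` mod `p`

`H` finite abelian group killed by `p^(K+1)`, `d = δ` of order dividing `p^a`, `s = Σ` commuting with `d`,
`Nm = ∑_{i<p^a} δ^i`, socle `S = {x | p x = 0, δ x = x}`.

* `size`  : `𝒦 ≤ H` `δ`-stable, `S ⊆ p^K Nm H`, `#(S ∩ 𝒦)^2 ≤ #S`  ⟹  `#𝒦^2 ≤ #H`.
* `main`  : `(Σ-1)H ⊆ K∞`, `(Σ-δ)H ⊆ K₀` (both `δ`-stable), `ker(δ-1) = Nm H`, `S ⊆ p^K Nm H`,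
            `Σ = 1` on `S ∩ K∞` and on `S ∩ K₀` [`(d1)`], `#{x ∈ S | Σ x = x}^2 ≤ #S` [`(I1)` mod `p`]
            ⟹ `(δ-1)(Σ-1)(Σ-δ) = 0`, `K∞ = (Σ-1)H`, `K₀ = (Σ-δ)H`, `(δ-1)(Σ-δ)K∞ = 0`, `(δ-1)(Σ-1)K₀ = 0`.
-/

set_option autoImplicit false
set_option linter.unusedSectionVars false

namespace Fermat.Agent.S43.Count

variable {H : Type*} [AddCommGroup H]

/-- multiplication by `p`. -/
def mulP (H : Type*) [AddCommGroup H] (p : ℕ) : H →+ H := nsmulAddMonoidHom p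

theorem mulP_apply (p : ℕ) (x : H) : mulP H p x = p • x := rfl

theorem mulP_iterate (p k : ℕ) (x : H) : (mulP H p)^[k] x = p ^ k • x := by
  induction k generalizing x with
  | zero => simp
  | succ k ih => rw [Function.iterate_succ_apply, ih, mulP_apply, smul_smul, pow_succ]

theorem iterate_comm (s d : H →+ H) (hsd : ∀ x, s (d x) = d (s x)) (i : ℕ) (x : H) :
    s (d^[i] x) = d^[i] (s x) := by
  induction i generalizing x with
  | zero => rfl
  | succ i ih => rw [Function.iterate_succ_apply, ih, hsd, ← Function.iterate_succ_apply (f := d)]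

theorem sum_iterate_shift (d : H →+ H) (n : ℕ) (x : H) (hd : d^[n] x = x) :
    ∑ i ∈ Finset.range n, d^[i + 1] x = ∑ i ∈ Finset.range n, d^[i] x := by
  have h1 := Finset.sum_range_succ (fun i => d^[i] x) n
  have h2 := Finset.sum_range_succ' (fun i => d^[i] x) n
  rw [h1, hd] at h2
  simpa using h2.symm

variable [Finite H]

theorem size (p K a : ℕ) [Fact p.Prime] (d : H →+ H) (hd : ∀ x, d^[p ^ a] x = x)
    (hp : ∀ x : H, p ^ (K + 1) • x = 0)
    (𝒦 : AddSubgroup H) (h𝒦 : ∀ x ∈ 𝒦, d x ∈ 𝒦)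
    (S : AddSubgroup H) (hS : ∀ x, x ∈ S ↔ p • x = 0 ∧ d x = x)
    (s1 : ∀ x ∈ S, ∃ y, x = p ^ K • ∑ i ∈ Finset.range (p ^ a), d^[i] y)
    (SK : AddSubgroup H) (hSK : ∀ x ∈ S, x ∈ 𝒦 → x ∈ SK) (s2 : Nat.card SK ^ 2 ≤ Nat.card S) :
    Nat.card 𝒦 ^ 2 ≤ Nat.card H := by
  classical
  have hn1 : p ^ a - 1 + 1 = p ^ a := Nat.sub_add_cancel (Nat.one_le_pow _ _ (Fact.out : p.Prime).pos)
  -- upper bound
  let Hp : AddSubgroup H := (mulP H p).ker
  have hHp : ∀ x, x ∈ Hp ↔ p • x = 0 := fun x => Iff.rfl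
  have u1 : Nat.card H ≤ Nat.card Hp ^ (K + 1) := by
    have := pow_upper (mulP H p) Hp (K + 1) ⊤ (fun _ _ => AddSubgroup.mem_top _)
      (fun x _ => by rw [mulP_iterate]; exact hp x) (fun x _ h => h)
    rwa [AddSubgroup.card_top] at this
  have u2 : Nat.card Hp ≤ Nat.card S ^ (p ^ a) := by
    refine pow_upper (d - AddMonoidHom.id H) S (p ^ a) Hp ?_ ?_ ?_
    · intro x hx
      rw [hHp] at hx ⊢
      rw [← map_nsmul, hx, map_zero]
    · intro x hx
      rw [sub_one_iterate d ((hHp x).1 hx), hd, sub_self]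
    · intro x hx h
      rw [hS]
      exact ⟨(hHp x).1 hx, sub_eq_zero.1 h⟩
  -- the quotient
  let mk : H →+ H ⧸ 𝒦 := QuotientAddGroup.mk' 𝒦
  have hmk : Function.Surjective mk := QuotientAddGroup.mk'_surjective 𝒦
  let dq : H ⧸ 𝒦 →+ H ⧸ 𝒦 := QuotientAddGroup.map 𝒦 𝒦 d (fun x hx => h𝒦 x hx)
  have hdq : ∀ x, dq (mk x) = mk (d x) := fun x => rfl
  have hdqi : ∀ (i : ℕ) (x : H), dq^[i] (mk x) = mk (d^[i] x) := by
    intro i
    induction i with
    | zero => intro x; rfl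
    | succ i ih => intro x; rw [Function.iterate_succ_apply, hdq, ih, ← Function.iterate_succ_apply (f := d)]
  have hpq : ∀ y : H ⧸ 𝒦, p ^ (K + 1) • y = 0 := by
    intro y
    obtain ⟨x, rfl⟩ := hmk y
    rw [← map_nsmul, hp, map_zero]
  let X : AddSubgroup (H ⧸ 𝒦) := (nsmulAddMonoidHom (p ^ K) : H ⧸ 𝒦 →+ H ⧸ 𝒦).range
  have hX : ∀ y : H ⧸ 𝒦, p ^ K • y ∈ X := fun y => ⟨y, rfl⟩
  have hXp : ∀ y ∈ X, p • y = 0 := by
    rintro _ ⟨y, rfl⟩
    show p • (p ^ K • y) = 0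
    rw [smul_smul, ← pow_succ']
    exact hpq y
  let Z : AddSubgroup (H ⧸ 𝒦) := S.map mk
  have l1 : Nat.card X ^ (K + 1) ≤ Nat.card (H ⧸ 𝒦) := by
    have := pow_lower (mulP (H ⧸ 𝒦) p) K ⊤ (fun _ _ => AddSubgroup.mem_top _)
      (fun x _ => by rw [mulP_iterate]; exact hpq x) X (by
        rintro _ ⟨y, rfl⟩
        exact ⟨y, AddSubgroup.mem_top _, by rw [mulP_iterate]; rfl⟩)
    rwa [AddSubgroup.card_top] at this
  have l2 : Nat.card Z ^ (p ^ a) ≤ Nat.card X := by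
    have := pow_lower (dq - AddMonoidHom.id (H ⧸ 𝒦)) (p ^ a - 1) X ?_ ?_ Z ?_
    · rwa [hn1] at this
    · rintro _ ⟨y, rfl⟩
      show (dq - AddMonoidHom.id (H ⧸ 𝒦)) (p ^ K • y) ∈ X
      rw [map_nsmul]
      exact hX _
    · intro y hy
      rw [hn1, sub_one_iterate dq (hXp y hy)]
      obtain ⟨x, rfl⟩ := hmk y
      rw [hdqi, hd, sub_self]
    · rintro _ ⟨x, hx, rfl⟩
      obtain ⟨y, rfl⟩ := s1 x hx
      refine ⟨p ^ K • mk y, hX _, ?_⟩
      rw [sub_one_iterate_pred dq (hXp _ (hX _))]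
      rw [map_nsmul, map_sum, Finset.smul_sum]
      refine Finset.sum_congr rfl fun i _ => ?_
      rw [← map_nsmul mk, ← map_nsmul mk, hdqi]
      congr 1
      exact (iterate_comm (nsmulAddMonoidHom (p ^ K)) d (fun x => (map_nsmul d _ x).symm) i y)
  have l3 : Nat.card S ≤ Nat.card SK * Nat.card Z := by
    let g : S →+ H ⧸ 𝒦 := mk.comp S.subtype
    rw [← card_ker_mul_card_range g]
    apply Nat.mul_le_mul
    · refine Nat.card_le_card_of_injective
        (fun z : g.ker => (⟨((z : S) : H), hSK _ (z : S).2 ?_⟩ : SK)) ?_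
      · have := z.2
        rw [AddMonoidHom.mem_ker] at this
        exact (QuotientAddGroup.eq_zero_iff _).1 this
      · intro z z' hzz
        apply Subtype.ext
        apply Subtype.ext
        exact congrArg (fun t : SK => (t : H)) hzz
    · apply AddSubgroup.card_le_of_le
      rintro _ ⟨y, rfl⟩
      exact ⟨y, y.2, rfl⟩
  have e0 : Nat.card H = Nat.card (H ⧸ 𝒦) * Nat.card 𝒦 :=
    AddSubgroup.card_eq_card_quotient_mul_card_addSubgroup 𝒦
  -- arithmetic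
  have pS : 0 < Nat.card S := Nat.card_pos
  have pQ : 0 < Nat.card (H ⧸ 𝒦) := Nat.card_pos
  set cH := Nat.card H
  set cS := Nat.card S
  set cZ := Nat.card Z
  set cX := Nat.card X
  set cQ := Nat.card (H ⧸ 𝒦)
  set cK := Nat.card 𝒦
  set cSK := Nat.card SK
  set cHp := Nat.card Hp
  have a1 : cS ≤ cZ ^ 2 := by
    have h1 : cS * cS ≤ cS * cZ ^ 2 := by
      calc cS * cS ≤ (cSK * cZ) * (cSK * cZ) := Nat.mul_le_mul l3 l3
        _ = cSK ^ 2 * cZ ^ 2 := by ring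
        _ ≤ cS * cZ ^ 2 := Nat.mul_le_mul s2 le_rfl
    exact Nat.le_of_mul_le_mul_left h1 pS
  have a2 : cH ≤ cQ ^ 2 := by
    calc cH ≤ cHp ^ (K + 1) := u1
      _ ≤ (cS ^ (p ^ a)) ^ (K + 1) := Nat.pow_le_pow_left u2 _
      _ ≤ ((cZ ^ 2) ^ (p ^ a)) ^ (K + 1) := Nat.pow_le_pow_left (Nat.pow_le_pow_left a1 _) _
      _ = ((cZ ^ (p ^ a)) ^ (K + 1)) ^ 2 := by
          rw [← pow_mul, ← pow_mul, ← pow_mul, ← pow_mul]
          congr 1
          ring
      _ ≤ (cX ^ (K + 1)) ^ 2 := Nat.pow_le_pow_left (Nat.pow_le_pow_left l2 _) _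
      _ ≤ cQ ^ 2 := Nat.pow_le_pow_left l1 _
  have a3 : cK ≤ cQ := by
    rw [e0, pow_two] at a2
    exact Nat.le_of_mul_le_mul_left a2 pQ
  calc cK ^ 2 = cK * cK := pow_two _
    _ ≤ cQ * cK := Nat.mul_le_mul a3 le_rfl
    _ = cH := e0.symm

/-- **MAIN** (inertial type on the tower). -/
theorem main (p K a : ℕ) [Fact p.Prime] (d s Nm : H →+ H)
    (hsd : ∀ x, s (d x) = d (s x)) (hd : ∀ x, d^[p ^ a] x = x)
    (hp : ∀ x : H, p ^ (K + 1) • x = 0)
    (hNm : ∀ x, Nm x = ∑ i ∈ Finset.range (p ^ a), d^[i] x)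
    (hker : ∀ x, d x = x → ∃ y, Nm y = x)
    (s1 : ∀ x, p • x = 0 → d x = x → ∃ y, x = p ^ K • Nm y)
    (Kinf K0 : AddSubgroup H) (hKinf : ∀ x ∈ Kinf, d x ∈ Kinf) (hK0 : ∀ x ∈ K0, d x ∈ K0)
    (g1 : ∀ x, s x - x ∈ Kinf) (g2 : ∀ x, s x - d x ∈ K0)
    (d1inf : ∀ x ∈ Kinf, p • x = 0 → d x = x → s x = x)
    (d10 : ∀ x ∈ K0, p • x = 0 → d x = x → s x = x)
    (S I1 : AddSubgroup H) (hS : ∀ x, x ∈ S ↔ p • x = 0 ∧ d x = x)
    (hI1 : ∀ x, x ∈ I1 ↔ p • x = 0 ∧ d x = x ∧ s x = x)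
    (e3 : Nat.card I1 ^ 2 ≤ Nat.card S) :
    (∀ x, d (s (s x - d x) - (s x - d x)) = s (s x - d x) - (s x - d x)) ∧
    (∀ y ∈ Kinf, ∃ x, y = s x - x) ∧ (∀ y ∈ K0, ∃ x, y = s x - d x) ∧
    (∀ y ∈ Kinf, d (s y - d y) = s y - d y) ∧ (∀ y ∈ K0, d (s y - y) = s y - y) := by
  classical
  have hsN : ∀ x, s (Nm x) = Nm (s x) := by
    intro x
    rw [hNm, hNm, map_sum]
    exact Finset.sum_congr rfl fun i _ => iterate_comm s d hsd i x
  have hNd : ∀ x, Nm (d x) = Nm x := by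
    intro x
    rw [hNm, hNm, ← sum_iterate_shift d _ x (hd x)]
    exact Finset.sum_congr rfl fun i _ => (Function.iterate_succ_apply d i x).symm
  have hdN : ∀ x, d (Nm x) = Nm x := by
    intro x
    rw [hNm, map_sum, ← sum_iterate_shift d _ x (hd x)]
    exact Finset.sum_congr rfl fun i _ => (Function.iterate_succ_apply' d i x).symm
  have s1' : ∀ x ∈ S, ∃ y, x = p ^ K • ∑ i ∈ Finset.range (p ^ a), d^[i] y := by
    intro x hx
    obtain ⟨y, hy⟩ := s1 x ((hS x).1 hx).1 ((hS x).1 hx).2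
    exact ⟨y, by rw [hy, hNm]⟩
  have z1 : Nat.card Kinf ^ 2 ≤ Nat.card H :=
    size p K a d hd hp Kinf hKinf S hS s1' I1 (fun x hx hxK => (hI1 x).2
      ⟨((hS x).1 hx).1, ((hS x).1 hx).2, d1inf x hxK ((hS x).1 hx).1 ((hS x).1 hx).2⟩) e3
  have z2 : Nat.card K0 ^ 2 ≤ Nat.card H :=
    size p K a d hd hp K0 hK0 S hS s1' I1 (fun x hx hxK => (hI1 x).2
      ⟨((hS x).1 hx).1, ((hS x).1 hx).2, d10 x hxK ((hS x).1 hx).1 ((hS x).1 hx).2⟩) e3
  -- the subgroups of `count`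
  let fA : H →+ H := s - AddMonoidHom.id H
  let fB : H →+ H := s - d
  let fV : H →+ H := d - AddMonoidHom.id H
  let A : AddSubgroup H := fA.ker
  let B : AddSubgroup H := fB.ker
  let V : AddSubgroup H := fV.ker
  let I : AddSubgroup H := A ⊓ V
  have hA : ∀ x, x ∈ A ↔ s x = x := fun x => sub_eq_zero
  have hB : ∀ x, x ∈ B ↔ s x = d x := fun x => sub_eq_zero
  have hV : ∀ x, x ∈ V ↔ d x = x := fun x => sub_eq_zero
  have hI : ∀ x, x ∈ I ↔ s x = x ∧ d x = x := fun x =>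
    ⟨fun h => ⟨(hA x).1 h.1, (hV x).1 h.2⟩, fun h => ⟨(hA x).2 h.1, (hV x).2 h.2⟩⟩
  -- (c3)
  have c3a : Nat.card I ≤ Nat.card I1 ^ (K + 1) := by
    refine pow_upper (mulP H p) I1 (K + 1) I ?_ ?_ ?_
    · intro x hx
      rw [hI] at hx ⊢
      rw [mulP_apply, map_nsmul, map_nsmul, hx.1, hx.2]
      exact ⟨rfl, rfl⟩
    · intro x _
      rw [mulP_iterate]
      exact hp x
    · intro x hx h
      rw [hI] at hx
      exact (hI1 x).2 ⟨h, hx.2, hx.1⟩
  have c3b : Nat.card S ^ (K + 1) ≤ Nat.card V := by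
    refine pow_lower (mulP H p) K V ?_ ?_ S ?_
    · intro x hx
      rw [hV] at hx ⊢
      rw [mulP_apply, map_nsmul, hx]
    · intro x _
      rw [mulP_iterate]
      exact hp x
    · intro z hz
      obtain ⟨y, hy⟩ := s1 z ((hS z).1 hz).1 ((hS z).1 hz).2
      exact ⟨Nm y, (hV _).2 (hdN y), by rw [mulP_iterate, hy]⟩
  have c3 : Nat.card I ^ 2 ≤ Nat.card V := by
    calc Nat.card I ^ 2 ≤ (Nat.card I1 ^ (K + 1)) ^ 2 := Nat.pow_le_pow_left c3a _
      _ = (Nat.card I1 ^ 2) ^ (K + 1) := by rw [← pow_mul, ← pow_mul, mul_comm]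
      _ ≤ Nat.card S ^ (K + 1) := Nat.pow_le_pow_left e3 _
      _ ≤ Nat.card V := c3b
  -- (c1), (c2)
  have eA := card_ker_mul_card_range fA
  have eB := card_ker_mul_card_range fB
  have rA : fA.range ≤ Kinf := by
    rintro _ ⟨x, rfl⟩
    exact g1 x
  have rB : fB.range ≤ K0 := by
    rintro _ ⟨x, rfl⟩
    exact g2 x
  have rA' : Nat.card fA.range ≤ Nat.card Kinf := AddSubgroup.card_le_of_le rA
  have rB' : Nat.card fB.range ≤ Nat.card K0 := AddSubgroup.card_le_of_le rB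
  have pH : 0 < Nat.card H := Nat.card_pos
  have kk : Nat.card Kinf * Nat.card K0 ≤ Nat.card H := by
    have h1 : (Nat.card Kinf * Nat.card K0) ^ 2 ≤ Nat.card H ^ 2 := by
      rw [mul_pow, pow_two (Nat.card H)]
      exact Nat.mul_le_mul z1 z2
    exact (Nat.pow_le_pow_iff_left (by norm_num)).1 h1
  have h1 : Nat.card H ≤ Nat.card A * Nat.card B := by
    have h2 : Nat.card H * Nat.card H ≤ (Nat.card A * Nat.card B) * Nat.card H := by
      calc Nat.card H * Nat.card H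
          = (Nat.card A * Nat.card fA.range) * (Nat.card B * Nat.card fB.range) := by rw [eA, eB]
        _ = (Nat.card A * Nat.card B) * (Nat.card fA.range * Nat.card fB.range) := by ring
        _ ≤ (Nat.card A * Nat.card B) * (Nat.card Kinf * Nat.card K0) :=
            Nat.mul_le_mul le_rfl (Nat.mul_le_mul rA' rB')
        _ ≤ (Nat.card A * Nat.card B) * Nat.card H := Nat.mul_le_mul le_rfl kk
    exact Nat.le_of_mul_le_mul_right h2 pH
  obtain ⟨r1, r2⟩ := count d s Nm hsd hsN hdN hNd hker A B I V hA hB hI hV h1 c3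
  -- equalities
  have q1 : Nat.card fA.range * Nat.card fB.range = Nat.card H := by
    have h3 : (Nat.card A * Nat.card B) * (Nat.card fA.range * Nat.card fB.range)
        = (Nat.card A * Nat.card B) * Nat.card H := by
      calc (Nat.card A * Nat.card B) * (Nat.card fA.range * Nat.card fB.range)
          = (Nat.card A * Nat.card fA.range) * (Nat.card B * Nat.card fB.range) := by ring
        _ = Nat.card H * Nat.card H := by rw [eA, eB]
        _ = (Nat.card A * Nat.card B) * Nat.card H := by rw [r2]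
    exact Nat.eq_of_mul_eq_mul_left (by rw [r2]; exact pH) h3
  have pA : 0 < Nat.card fA.range := Nat.card_pos
  have pB : 0 < Nat.card fB.range := Nat.card_pos
  have q2 : Nat.card Kinf ≤ Nat.card fA.range := by
    have h4 : Nat.card Kinf * Nat.card fB.range ≤ Nat.card fA.range * Nat.card fB.range := by
      rw [q1]
      exact (Nat.mul_le_mul le_rfl rB').trans kk
    exact Nat.le_of_mul_le_mul_right h4 pB
  have q3 : Nat.card K0 ≤ Nat.card fB.range := by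
    have h4 : Nat.card fA.range * Nat.card K0 ≤ Nat.card fA.range * Nat.card fB.range := by
      rw [q1]
      exact (Nat.mul_le_mul rA' le_rfl).trans kk
    exact Nat.le_of_mul_le_mul_left h4 pA
  have tA : fA.range = Kinf := AddSubgroup.eq_of_le_of_card_ge rA q2
  have tB : fB.range = K0 := AddSubgroup.eq_of_le_of_card_ge rB q3
  have wA : ∀ y ∈ Kinf, ∃ x, y = s x - x := by
    intro y hy
    rw [← tA] at hy
    obtain ⟨x, rfl⟩ := hy
    exact ⟨x, rfl⟩
  have wB : ∀ y ∈ K0, ∃ x, y = s x - d x := by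
    intro y hy
    rw [← tB] at hy
    obtain ⟨x, rfl⟩ := hy
    exact ⟨x, rfl⟩
  refine ⟨r1, wA, wB, ?_, ?_⟩
  · intro y hy
    obtain ⟨x, rfl⟩ := wA y hy
    have e : s (s x - x) - d (s x - x) = s (s x - d x) - (s x - d x) := by
      simp only [map_sub, hsd]
      abel
    rw [e]
    exact r1 x
  · intro y hy
    obtain ⟨x, rfl⟩ := wB y hy
    exact r1 x

end Fermat.Agent.S43.Count
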