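import Fermat.Agent.S43.Count

/-!
# S43 / CountPow : size bounds for modules over `(ℤ/p^K)[Δ]`, `Δ = ⟨δ⟩` cyclic of order `p^a`

* `pow_lower` : `f^(m+1) = 0` on a stable subgroup `S`, `Z ⊆ f^m S`  ⟹  `#Z^(m+1) ≤ #S`;
* `pow_upper` : `f^m = 0` on a stable subgroup `S`, `S ∩ ker f ⊆ Kf`  ⟹  `#S ≤ #Kf^m`;
* `sub_one_iterate`, `sub_one_iterate_pred` : on elements killed by `p`,
  `(δ-1)^(p^a) = δ^(p^a) - 1` and `(δ-1)^(p^a-1) = ∑_{i<p^a} δ^i`.
-/

set_option autoImplicit false
set_option linter.unusedSectionVars false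

open Polynomial

namespace Fermat.Agent.S43.Count

section pow

variable {Q : Type*} [AddCommGroup Q] [Finite Q]

theorem stable_iterate (f : Q →+ Q) (S : AddSubgroup Q) (hS : ∀ x ∈ S, f x ∈ S) (k : ℕ) :
    ∀ x ∈ S, f^[k] x ∈ S := by
  induction k with
  | zero => intro x hx; exact hx
  | succ k ih =>
    intro x hx
    rw [Function.iterate_succ_apply]
    exact ih _ (hS x hx)

theorem pow_lower (f : Q →+ Q) : ∀ (m : ℕ) (S : AddSubgroup Q), (∀ x ∈ S, f x ∈ S) →
    (∀ x ∈ S, f^[m + 1] x = 0) → ∀ Z : AddSubgroup Q, (∀ z ∈ Z, ∃ x ∈ S, z = f^[m] x) →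
    Nat.card Z ^ (m + 1) ≤ Nat.card S := by
  intro m
  induction m with
  | zero =>
    intro S _ _ Z hZ
    rw [zero_add, pow_one]
    apply AddSubgroup.card_le_of_le
    intro z hz
    obtain ⟨x, hx, rfl⟩ := hZ z hz
    exact hx
  | succ m ih =>
    intro S hS h0 Z hZ
    have hS' : ∀ x ∈ S.map f, f x ∈ S.map f := by
      rintro _ ⟨y, hy, rfl⟩
      exact ⟨f y, hS y hy, rfl⟩
    have h0' : ∀ x ∈ S.map f, f^[m + 1] x = 0 := by
      rintro _ ⟨y, hy, rfl⟩
      have := h0 y hy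
      rwa [Function.iterate_succ_apply] at this
    have h1 := ih (S.map f) hS' h0' Z (by
      intro z hz
      obtain ⟨x, hx, rfl⟩ := hZ z hz
      exact ⟨f x, ⟨x, hx, rfl⟩, by rw [Function.iterate_succ_apply]⟩)
    let g : S →+ Q := AddMonoidHom.comp f S.subtype
    have e2 := card_ker_mul_card_range g
    have h2 : Nat.card Z ≤ Nat.card g.ker := by
      refine Nat.card_le_card_of_injective
        (fun z : Z => (⟨⟨(z : Q), ?_⟩, ?_⟩ : g.ker)) ?_
      · obtain ⟨y, hy, hyz⟩ := hZ z z.2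
        rw [hyz]
        exact stable_iterate f S hS _ y hy
      · rw [AddMonoidHom.mem_ker]
        show f (z : Q) = 0
        obtain ⟨y, hy, hyz⟩ := hZ z z.2
        rw [hyz]
        have := h0 y hy
        rwa [Function.iterate_succ_apply'] at this
      · intro z z' hzz
        apply Subtype.ext
        exact congrArg (fun t : g.ker => ((t : S) : Q)) hzz
    have h3 : Nat.card (S.map f) ≤ Nat.card g.range := by
      apply AddSubgroup.card_le_of_le
      rintro _ ⟨y, hy, rfl⟩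
      exact ⟨⟨y, hy⟩, rfl⟩
    calc Nat.card Z ^ (m + 1 + 1) = Nat.card Z * Nat.card Z ^ (m + 1) := by rw [pow_succ']
      _ ≤ Nat.card g.ker * Nat.card g.range := Nat.mul_le_mul h2 (h1.trans h3)
      _ = Nat.card S := e2

theorem pow_upper (f : Q →+ Q) (Kf : AddSubgroup Q) : ∀ (m : ℕ) (S : AddSubgroup Q),
    (∀ x ∈ S, f x ∈ S) → (∀ x ∈ S, f^[m] x = 0) → (∀ x ∈ S, f x = 0 → x ∈ Kf) →
    Nat.card S ≤ Nat.card Kf ^ m := by
  intro m
  induction m with
  | zero =>
    intro S _ h0 _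
    have : S = ⊥ := by
      rw [eq_bot_iff]
      intro x hx
      exact h0 x hx
    rw [this, pow_zero]
    simp
  | succ m ih =>
    intro S hS h0 hK
    have hS' : ∀ x ∈ S.map f, f x ∈ S.map f := by
      rintro _ ⟨y, hy, rfl⟩
      exact ⟨f y, hS y hy, rfl⟩
    have h0' : ∀ x ∈ S.map f, f^[m] x = 0 := by
      rintro _ ⟨y, hy, rfl⟩
      have := h0 y hy
      rwa [Function.iterate_succ_apply] at this
    have h1 := ih (S.map f) hS' h0' (by
      rintro _ ⟨y, hy, rfl⟩ h
      exact hK _ (hS y hy) h)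
    let g : S →+ Q := AddMonoidHom.comp f S.subtype
    have e2 := card_ker_mul_card_range g
    have h2 : Nat.card g.ker ≤ Nat.card Kf := by
      refine Nat.card_le_card_of_injective
        (fun z : g.ker => (⟨((z : S) : Q), hK _ (z : S).2 ?_⟩ : Kf)) ?_
      · have := z.2
        rw [AddMonoidHom.mem_ker] at this
        exact this
      · intro z z' hzz
        apply Subtype.ext
        apply Subtype.ext
        exact congrArg (fun t : Kf => (t : Q)) hzz
    have h3 : Nat.card g.range ≤ Nat.card (S.map f) := by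
      apply AddSubgroup.card_le_of_le
      rintro _ ⟨y, rfl⟩
      exact ⟨y, y.2, rfl⟩
    calc Nat.card S = Nat.card g.ker * Nat.card g.range := e2.symm
      _ ≤ Nat.card Kf * Nat.card Kf ^ m := Nat.mul_le_mul h2 (h3.trans h1)
      _ = Nat.card Kf ^ (m + 1) := by rw [pow_succ']

end pow

section poly

variable (p a : ℕ) [Fact p.Prime]

theorem C_dvd_of_map_eq_zero (P : ℤ[X]) (h : P.map (Int.castRingHom (ZMod p)) = 0) :
    ∃ g : ℤ[X], P = C (p : ℤ) * g := by
  have : C (p : ℤ) ∣ P := by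
    rw [Polynomial.C_dvd_iff_dvd_coeff]
    intro i
    have h1 : (P.map (Int.castRingHom (ZMod p))).coeff i = 0 := by rw [h]; simp
    rw [Polynomial.coeff_map] at h1
    exact (ZMod.intCast_zmod_eq_zero_iff_dvd _ p).1 h1
  exact this

theorem poly1 : ∃ g : ℤ[X], (X - 1 : ℤ[X]) ^ (p ^ a) = X ^ (p ^ a) - 1 + C (p : ℤ) * g := by
  obtain ⟨g, hg⟩ := C_dvd_of_map_eq_zero p ((X - 1 : ℤ[X]) ^ (p ^ a) - (X ^ (p ^ a) - 1)) (by
    simp only [Polynomial.map_sub, Polynomial.map_pow, Polynomial.map_X, Polynomial.map_one]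
    rw [sub_pow_char_pow, one_pow, sub_self])
  exact ⟨g, by rw [← hg]; ring⟩

theorem poly2 : ∃ g : ℤ[X], (X - 1 : ℤ[X]) ^ (p ^ a - 1)
    = (∑ i ∈ Finset.range (p ^ a), X ^ i) + C (p : ℤ) * g := by
  have hX : (X - 1 : (ZMod p)[X]) ≠ 0 := by
    have := Polynomial.X_sub_C_ne_zero (1 : ZMod p)
    simpa using this
  obtain ⟨g, hg⟩ := C_dvd_of_map_eq_zero p
    ((X - 1 : ℤ[X]) ^ (p ^ a - 1) - (∑ i ∈ Finset.range (p ^ a), X ^ i)) (by
    simp only [Polynomial.map_sub, Polynomial.map_pow, Polynomial.map_X, Polynomial.map_one,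
      Polynomial.map_sum]
    apply mul_right_cancel₀ hX
    rw [zero_mul, sub_mul, ← pow_succ, geom_sum_mul,
      Nat.sub_add_cancel (Nat.one_le_pow _ _ (Fact.out : p.Prime).pos), sub_pow_char_pow, one_pow,
      sub_self])
  exact ⟨g, by rw [← hg]; ring⟩

variable {p a} {Q : Type*} [AddCommGroup Q]

theorem aeval_C_mul_apply (d : Module.End ℤ Q) (g : ℤ[X]) {x : Q} (hx : p • x = 0) :
    (aeval d (C (p : ℤ) * g)) x = 0 := by
  rw [mul_comm, map_mul, aeval_C, Module.End.mul_apply, Module.algebraMap_end_apply,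
    natCast_zsmul, hx, map_zero]

theorem iterate_toInt (f : Q →+ Q) (k : ℕ) (x : Q) :
    (f.toIntLinearMap ^ k : Module.End ℤ Q) x = f^[k] x := by
  rw [Module.End.pow_apply]
  rfl

theorem sub_one_iterate (d : Q →+ Q) {x : Q} (hx : p • x = 0) :
    (d - AddMonoidHom.id Q)^[p ^ a] x = d^[p ^ a] x - x := by
  obtain ⟨g, hg⟩ := poly1 p a
  have h := congrArg (fun P => (aeval d.toIntLinearMap P) x) hg
  simp only [map_pow, map_sub, map_add, aeval_X, map_one] at h
  rw [LinearMap.add_apply, aeval_C_mul_apply _ g hx, add_zero, LinearMap.sub_apply,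
    iterate_toInt, Module.End.one_apply] at h
  rw [← h, ← iterate_toInt]
  rfl

theorem sub_one_iterate_pred (d : Q →+ Q) {x : Q} (hx : p • x = 0) :
    (d - AddMonoidHom.id Q)^[p ^ a - 1] x = ∑ i ∈ Finset.range (p ^ a), d^[i] x := by
  obtain ⟨g, hg⟩ := poly2 p a
  have h := congrArg (fun P => (aeval d.toIntLinearMap P) x) hg
  simp only [map_pow, map_sub, map_add, aeval_X, map_one, map_sum] at h
  rw [LinearMap.add_apply, aeval_C_mul_apply _ g hx, add_zero, LinearMap.sum_apply] at h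
  simp only [iterate_toInt] at h
  rw [← h, ← iterate_toInt]
  rfl

end poly

end Fermat.Agent.S43.Count
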